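/-
GATE-H / node L (ii), chart-free core, part 1 (helper87): Riemann's INEQUALITY from the `rrF`
shape, SCALING to Gauss norm one from `LSpaceHyp.orth`, and SEMICONTINUITY
`red (L(D) ∩ Rw) ⊆ L(r_* D)`, `l(D) ≤ l(r_* D)` for effective `D`.
-/
import Mathlib
import Fermat.Agent.GH.Vocab

set_option autoImplicit false

noncomputable section

open AlgebraicCurve

namespace Fermat.Agent.GH.L2

open Fermat.Agent.RRh45 Fermat.Agent.GJ.S37MinDiv Fermat.Agent.GJ.J1 Fermat.Agent.GJ.S37LSpace
  Fermat.Agent.GJ.S37ROfSurj Fermat.Agent.GH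

/-! ### Riemann's inequality from Riemann's theorem -/

section Riemann

variable {K F : Type*} [Field K] [Field F] [Algebra K F]
variable [FiniteResidues K F] [HasPrincipalDivisors K F] [Nonempty (Place K F)]

/-- **Riemann's inequality** `l(D) ≥ deg D + 1 - g` for every divisor, from Riemann's theorem in
large degree. -/
theorem riemann_ineq_of_rr (hdeg : ∀ P : Place K F, P.deg = 1) {g c : ℤ}
    (rr : ∀ E : Divisor K F, c ≤ Divisor.degree E →
      (Module.finrank K (riemannRochSpace E) : ℤ) = Divisor.degree E + 1 - g)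
    (D : Divisor K F) :
    Divisor.degree D + 1 - g ≤ (Module.finrank K (riemannRochSpace D) : ℤ) := by
  obtain ⟨P⟩ := ‹Nonempty (Place K F)›
  set n : ℕ := (c - Divisor.degree D).toNat with hn
  have hn' : c - Divisor.degree D ≤ (n : ℤ) := Int.self_le_toNat _
  set E : Divisor K F := D + Finsupp.single P (n : ℤ) with hE
  have hDE : D ≤ E := by
    refine le_add_of_nonneg_right ?_
    rw [Finsupp.le_def]
    intro Q
    classical
    rw [Finsupp.single_apply]
    split_ifs <;> simp
  have hdE : Divisor.degree E = Divisor.degree D + n := by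
    rw [hE, map_add, Divisor.degree_single, hdeg, Nat.cast_one, mul_one]
  have h1 := finrank_le_of_le hDE
  have h2 := rr E (by rw [hdE]; omega)
  rw [hdE] at h1 h2
  omega

end Riemann

variable {K F k Ft : Type*} [Field K] [Field F] [Algebra K F] [Field k] [Field Ft] [Algebra k Ft]
variable {R : RedData K F k Ft} {g c : ℤ}

/-! ### Normalising a linear combination -/

/-- the element `a • y` of `Rw` for `a ∈ A`, `y ∈ Rw`. -/
def smulRw (R : RedData K F k Ft) (a : R.A) (y : R.Rw) : R.Rw :=
  ⟨algebraMap K F (a : K), (R.mem_A_iff a).1 a.2⟩ * y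

theorem coe_smulRw (a : R.A) (y : R.Rw) : ((smulRw R a y : R.Rw) : F) = (a : K) • (y : F) := by
  rw [smulRw, Algebra.smul_def]; rfl

theorem red_smulRw (a : R.A) (y : R.Rw) :
    R.red (smulRw R a y) = R.res a • R.red y := by
  rw [smulRw, map_mul, R.red_algebraMap, Algebra.smul_def]

/-- **normalisation**: a `K`-combination of elements of `Rw` with a nonzero coefficient is
`g j • z` with `z ∈ Rw` whose reduction is a `k`-combination of the reductions with `j`-th
coefficient one. -/
theorem exists_normalize {ι : Type*} (s : Finset ι) (γ : ι → K) (y : ι → R.Rw)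
    (hne : ∃ i ∈ s, γ i ≠ 0) :
    ∃ j ∈ s, γ j ≠ 0 ∧ ∃ (z : R.Rw) (cf : ι → k), cf j = 1 ∧
      (∑ i ∈ s, γ i • (y i : F)) = γ j • (z : F) ∧ R.red z = ∑ i ∈ s, cf i • R.red (y i) := by
  classical
  obtain ⟨i₀, hi₀s, hi₀⟩ := hne
  obtain ⟨j, hjs, hmax⟩ := Finset.exists_max_image s (fun i => R.A.valuation (γ i)) ⟨i₀, hi₀s⟩
  have hj0 : γ j ≠ 0 := by
    intro h0
    have h1 := hmax i₀ hi₀s
    rw [h0, map_zero] at h1
    exact hi₀ ((map_eq_zero _).mp (le_antisymm h1 zero_le))
  have hmem : ∀ i ∈ s, γ i / γ j ∈ R.A := by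
    intro i hi
    rw [← ValuationSubring.valuation_le_one_iff, map_div₀]
    exact div_le_one_of_le₀ (hmax i hi) zero_le
  let a : ι → R.A := fun i => if hi : i ∈ s then ⟨γ i / γ j, hmem i hi⟩ else 0
  have ha : ∀ i ∈ s, ((a i : R.A) : K) = γ i / γ j := fun i hi => by simp [a, hi]
  have haj : a j = 1 := by
    apply Subtype.ext
    rw [ha j hjs, div_self hj0]; rfl
  refine ⟨j, hjs, hj0, ∑ i ∈ s, smulRw R (a i) (y i), fun i => R.res (a i), ?_, ?_, ?_⟩
  · show R.res (a j) = 1
    rw [haj, map_one]
  · rw [AddSubmonoidClass.coe_finsetSum, Finset.smul_sum]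
    refine Finset.sum_congr rfl fun i hi => ?_
    rw [coe_smulRw, ha i hi, smul_smul, mul_div_cancel₀ _ hj0]
  · rw [map_sum]
    exact Finset.sum_congr rfl fun i _ => red_smulRw (a i) (y i)

/-- lifts to `Rw` of a `k`-linearly independent family are `K`-linearly independent. -/
theorem linearIndependent_of_red {ι : Type*} (y : ι → R.Rw)
    (hy : LinearIndependent k fun i => R.red (y i)) : LinearIndependent K fun i => (y i : F) := by
  classical
  rw [linearIndependent_iff']
  intro s γ hsum
  by_contra hcon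
  push Not at hcon
  obtain ⟨j, hjs, hj0, z, cf, hcfj, hz, hred⟩ := exists_normalize s γ y hcon
  rw [hsum] at hz
  have hz0 : (z : F) = 0 := by
    rcases smul_eq_zero.mp hz.symm with h | h
    · exact absurd h hj0
    · exact h
  have hz0' : z = 0 := Subtype.ext hz0
  rw [hz0', map_zero] at hred
  have := linearIndependent_iff'.mp hy s cf hred.symm j hjs
  rw [hcfj] at this
  exact one_ne_zero this

variable [FiniteResidues K F] [HasPrincipalDivisors K F] [Nonempty (Place K F)]
variable [FiniteResidues k Ft] [HasPrincipalDivisors k Ft] [Nonempty (Place k Ft)]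
variable [Infinite k]

/-! ### Scaling to Gauss norm one -/

omit [FiniteResidues k Ft] [HasPrincipalDivisors k Ft] [Nonempty (Place k Ft)] [Infinite k] in
/-- **scaling in an effective L-space** (from `orth`): a nonzero `f ∈ L(D)`, `D ≥ 0`, is a
constant multiple of an element of `Rw` with nonzero reduction. -/
theorem exists_scale_of_mem (H : LSpaceHyp R g c) {D : Divisor K F} (hD : 0 ≤ D) {f : F}
    (hf : f ∈ riemannRochSpace D) (hf0 : f ≠ 0) :
    ∃ (a : K) (z : R.Rw), a ≠ 0 ∧ f = a • (z : F) ∧ R.red z ≠ 0 := by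
  classical
  have hfin := finite_redSpace H hD
  let b := Module.finBasis k (redSpace R D)
  have hb : ∀ i, ∃ x : R.Rw, (x : F) ∈ riemannRochSpace D ∧ R.red x = (b i : Ft) :=
    fun i => (b i).2
  choose y hyD hyb using hb
  have hli_red : LinearIndependent k fun i => R.red (y i) := by
    have h1 : LinearIndependent k fun i => ((b i : redSpace R D) : Ft) :=
      b.linearIndependent.map' (redSpace R D).subtype (Submodule.ker_subtype _)
    simpa only [hyb] using h1
  have hli : LinearIndependent K fun i => (y i : F) := linearIndependent_of_red y hli_red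
  -- the lifts span `L(D)`
  let v : Fin (Module.finrank k (redSpace R D)) → riemannRochSpace D := fun i => ⟨(y i : F), hyD i⟩
  have hliv : LinearIndependent K v :=
    LinearIndependent.of_comp (riemannRochSpace D).subtype hli
  have hcard : Fintype.card (Fin (Module.finrank k (redSpace R D))) =
      Module.finrank K (riemannRochSpace D) := by
    rw [Fintype.card_fin, H.orth D hD]
  have hspan := hliv.span_eq_top_of_card_eq_finrank' hcard
  have hfmem : (⟨f, hf⟩ : riemannRochSpace D) ∈ Submodule.span K (Set.range v) := by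
    rw [hspan]; exact Submodule.mem_top
  obtain ⟨γ, hγ⟩ := (Submodule.mem_span_range_iff_exists_fun K).mp hfmem
  have hγ' : ∑ i, γ i • (y i : F) = f := by
    have := congrArg Subtype.val hγ
    simpa [v] using this
  have hne : ∃ i ∈ (Finset.univ : Finset (Fin (Module.finrank k (redSpace R D)))), γ i ≠ 0 := by
    by_contra hall
    push Not at hall
    apply hf0
    rw [← hγ']
    exact Finset.sum_eq_zero fun i hi => by rw [hall i hi, zero_smul]
  obtain ⟨j, -, hj0, z, cf, hcfj, hz, hred⟩ := exists_normalize Finset.univ γ y hne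
  refine ⟨γ j, z, hj0, by rw [← hγ', hz], ?_⟩
  rw [hred]
  intro h0
  have := linearIndependent_iff'.mp hli_red Finset.univ cf h0 j (Finset.mem_univ j)
  rw [hcfj] at this
  exact one_ne_zero this

omit [FiniteResidues k Ft] [HasPrincipalDivisors k Ft] [Nonempty (Place k Ft)] [Infinite k] in
/-- **scaling**: every nonzero function is a constant multiple of a Gauss unit. -/
theorem exists_scale (H : LSpaceHyp R g c) {f : F} (hf0 : f ≠ 0) :
    ∃ (a : K) (z : R.Rw), a ≠ 0 ∧ f = a • (z : F) ∧ R.red z ≠ 0 := by
  obtain ⟨Df, hDf, -⟩ := HasPrincipalDivisors.exists_divisor (K := K) f hf0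
  exact exists_scale_of_mem H le_sup_right (mem_riemannRochSpace_neg_sup_zero hDf) hf0

/-! ### Semicontinuity -/

omit [FiniteResidues K F] [HasPrincipalDivisors K F] [Nonempty (Place K F)]
  [FiniteResidues k Ft] [HasPrincipalDivisors k Ft] [Nonempty (Place k Ft)] [Infinite k] in
/-- push-forward of an effective divisor is effective. -/
theorem mapDomain_nonneg {α β : Type*} (r : α → β) {D : α →₀ ℤ} (hD : 0 ≤ D) :
    0 ≤ Finsupp.mapDomain r D := by
  classical
  rw [Finsupp.le_def]
  intro Q
  rw [mapDomain_apply_eq_sum]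
  exact Finset.sum_nonneg fun P _ => by simpa using Finsupp.le_def.mp hD P

/-- **(S)**: the reduction of a Gauss-integral element of `L(D)` lies in `L(r_* D)`. -/
theorem red_mem_L (H : LSpaceHyp R g c) {D : Divisor K F} {x : R.Rw}
    (hx : (x : F) ∈ riemannRochSpace D) (hx0 : R.red x ≠ 0) :
    R.red x ∈ riemannRochSpace (Finsupp.mapDomain (rOf H) D) := by
  have hxF : (x : F) ≠ 0 := fun h => hx0 (by rw [show x = 0 from Subtype.ext h, map_zero])
  obtain ⟨Dx, hDx, -⟩ := HasPrincipalDivisors.exists_divisor (K := K) (x : F) hxF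
  have hnn : 0 ≤ Dx + D := by
    rw [Finsupp.le_def]
    intro P
    have := (mem_riemannRochSpace_iff.mp hx P).resolve_left hxF
    rw [Finsupp.add_apply, hDx P, Finsupp.zero_apply]
    omega
  have h1 := mapDomain_nonneg (rOf H) hnn
  rw [Finsupp.mapDomain_add] at h1
  rw [mem_riemannRochSpace_iff]
  intro Q
  right
  have h2 := Finsupp.le_def.mp h1 Q
  rw [Finsupp.add_apply, mapDomain_rOf_principal H hx0 hDx Q, Finsupp.zero_apply] at h2
  omega

/-- `redSpace R D ≤ L(r_* D)`. -/
theorem redSpace_le (H : LSpaceHyp R g c) (D : Divisor K F) :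
    redSpace R D ≤ riemannRochSpace (Finsupp.mapDomain (rOf H) D) := by
  rintro _ ⟨x, hx, rfl⟩
  by_cases hx0 : R.red x = 0
  · rw [hx0]; exact zero_mem _
  · exact red_mem_L H hx hx0

/-- **semicontinuity**: `l(D) ≤ l(r_* D)` for effective `D`. -/
theorem finrank_le_reduction (H : LSpaceHyp R g c) {D : Divisor K F} (hD : 0 ≤ D) :
    Module.finrank K (riemannRochSpace D) ≤
      Module.finrank k (riemannRochSpace (Finsupp.mapDomain (rOf H) D)) := by
  rw [← H.orth D hD]
  exact Submodule.finrank_mono (redSpace_le H D)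

end Fermat.Agent.GH.L2
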