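/-
GATE-H / node L (ii), chart-free core, part 2 (helper87): the EFFECTIVE REPRESENTATIVE of a class
in the kernel of reduction.

Frame of `GH/Vocab.lean`.  `Q : Fin n → Place k Ft` with `l(Σ Q i) = 1` (non-special), `n = g`,
`D0` a divisor of degree `n` on the generic fibre with `r_* D0 = Σ Q i`.

* `exists_effRep` : every `ξ ∈ KerRed H` is `[E - D0]` with `E ≥ 0` and `r_* E = Σ Q i`;
* `effRep_unique` : such an `E` is unique;
* `exists_points` : if moreover the `Q i` are pairwise distinct, an effective `E` with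
  `r_* E = Σ Q i` is `Σ P i` with exactly one point `P i` in each disc `disc H (Q i)`;
* chart forms `Chart.exists_effRep`, `Chart.exists_points_of_kerRed`.
-/
import Mathlib
import Fermat.Agent.GH.L2.Scale

set_option autoImplicit false

noncomputable section

open AlgebraicCurve

namespace Fermat.Agent.GH.L2

open Fermat.Agent.RRh45 Fermat.Agent.GJ.S37MinDiv Fermat.Agent.GJ.J1 Fermat.Agent.GJ.S37LSpace
  Fermat.Agent.GJ.S37ROfSurj Fermat.Agent.GH Fermat.Agent.S24

/-! ### Generalities -/

section General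

variable {K F : Type*} [Field K] [Field F] [Algebra K F]

/-- equality of classes = principal difference. -/
theorem mk_eq_mk_iff {D D' : Divisor.degZero (K := K) (F := F)} :
    Pic0.mk D = Pic0.mk D' ↔ Divisor.IsPrincipal ((D : Divisor K F) - (D' : Divisor K F)) := by
  rw [Pic0.mk, Pic0.mk, QuotientAddGroup.eq, AddSubgroup.mem_addSubgroupOf, ← Divisor.mem_principal]
  rw [← neg_mem_iff (H := Divisor.principal (K := K) (F := F))]
  simp only [AddSubgroup.coe_add, NegMemClass.coe_neg, neg_add_rev, neg_neg]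
  rw [sub_eq_add_neg, add_comm]

/-- a `1`-dimensional space containing `1` consists of constants. -/
theorem exists_const_of_finrank_eq_one {D : Divisor K F} (hD : 0 ≤ D)
    (h1 : Module.finrank K (riemannRochSpace D) = 1) {f : F} (hf : f ∈ riemannRochSpace D) :
    ∃ a : K, f = algebraMap K F a := by
  have hone : (⟨1, one_mem_riemannRochSpace hD⟩ : riemannRochSpace D) ≠ 0 :=
    fun h => one_ne_zero (congrArg Subtype.val h)
  obtain ⟨a, ha⟩ := (finrank_eq_one_iff_of_nonzero' _ hone).mp h1 ⟨f, hf⟩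
  refine ⟨a, ?_⟩
  have := congrArg Subtype.val ha
  simpa [Algebra.smul_def] using this.symm

/-- sums of positive integers: total `1` means a singleton. -/
theorem eq_singleton_of_sum_eq_one {α : Type*} [DecidableEq α] (s : Finset α) (f : α → ℤ)
    (hpos : ∀ a ∈ s, 1 ≤ f a) (hsum : ∑ a ∈ s, f a = 1) : ∃ a, s = {a} ∧ f a = 1 := by
  have hcard : (s.card : ℤ) ≤ 1 := by
    calc (s.card : ℤ) = ∑ _a ∈ s, (1 : ℤ) := by simp
      _ ≤ ∑ a ∈ s, f a := Finset.sum_le_sum hpos
      _ = 1 := hsum
  have hne : s.Nonempty := by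
    rw [Finset.nonempty_iff_ne_empty]
    rintro rfl
    simp at hsum
  have hc1 : s.card = 1 := by
    have := Finset.card_pos.mpr hne
    omega
  obtain ⟨a, rfl⟩ := Finset.card_eq_one.mp hc1
  exact ⟨a, rfl, by simpa using hsum⟩

/-- sums of positive integers: total `0` means empty. -/
theorem eq_empty_of_sum_eq_zero {α : Type*} (s : Finset α) (f : α → ℤ)
    (hpos : ∀ a ∈ s, 1 ≤ f a) (hsum : ∑ a ∈ s, f a = 0) : s = ∅ := by
  by_contra hne
  obtain ⟨a, ha⟩ := Finset.nonempty_iff_ne_empty.mpr hne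
  have h1 : f a ≤ ∑ b ∈ s, f b :=
    Finset.single_le_sum (fun b hb => by have := hpos b hb; omega) ha
  have := hpos a ha
  omega

end General

variable {K F k Ft : Type*} [Field K] [Field F] [Algebra K F] [Field k] [Field Ft] [Algebra k Ft]
variable {R : RedData K F k Ft} {g c : ℤ}
variable [FiniteResidues K F] [HasPrincipalDivisors K F] [Nonempty (Place K F)]
variable [FiniteResidues k Ft] [HasPrincipalDivisors k Ft] [Nonempty (Place k Ft)]
variable [Infinite k]

/-! ### Existence -/

omit [FiniteResidues K F] [HasPrincipalDivisors K F] [Nonempty (Place K F)]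
  [FiniteResidues k Ft] [HasPrincipalDivisors k Ft] [Nonempty (Place k Ft)] [Infinite k] in
theorem sum_single_nonneg' {n : ℕ} (Q : Fin n → Place k Ft) :
    0 ≤ ∑ i, Finsupp.single (Q i) (1 : ℤ) := by
  refine Finset.sum_nonneg fun i _ => ?_
  rw [Finsupp.le_def]
  intro P
  classical
  rw [Finsupp.single_apply]
  split_ifs <;> simp

/-- **existence of the effective representative**. -/
theorem exists_effRep (H : LSpaceHyp R g c) {n : ℕ} (hn : (n : ℤ) = g) (Q : Fin n → Place k Ft)
    (hns : Module.finrank k (riemannRochSpace (∑ i, Finsupp.single (Q i) (1 : ℤ))) = 1)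
    (D0 : Divisor K F) (hD0deg : Divisor.degree D0 = n)
    (hD0r : Finsupp.mapDomain (rOf H) D0 = ∑ i, Finsupp.single (Q i) (1 : ℤ))
    {ξ : Pic0 K F} (hξ : ξ ∈ KerRed H) :
    ∃ E : Divisor K F, 0 ≤ E ∧
      Finsupp.mapDomain (rOf H) E = ∑ i, Finsupp.single (Q i) (1 : ℤ) ∧
      ∃ hdeg : E - D0 ∈ Divisor.degZero (K := K) (F := F), Pic0.mk ⟨E - D0, hdeg⟩ = ξ := by
  obtain ⟨D, rfl, φt, hφ0, hφ⟩ := hξ
  set SQ : Divisor k Ft := ∑ i, Finsupp.single (Q i) (1 : ℤ) with hSQ
  have hSQ0 : 0 ≤ SQ := sum_single_nonneg' Q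
  -- a nonzero function in `L(D + D0)`
  have hdegD : Divisor.degree (D : Divisor K F) = 0 := Divisor.mem_degZero.mp D.2
  have hdeg : Divisor.degree ((D : Divisor K F) + D0) = g := by
    rw [map_add, hdegD, hD0deg, zero_add, hn]
  have h1 := riemann_ineq_of_rr H.degF H.rrF ((D : Divisor K F) + D0)
  rw [hdeg] at h1
  have hpos : 0 < Module.finrank K (riemannRochSpace ((D : Divisor K F) + D0)) := by omega
  obtain ⟨⟨f, hf⟩, hfne⟩ := (Module.finrank_pos_iff_exists_ne_zero).mp hpos
  have hf0 : f ≠ 0 := fun h => hfne (Subtype.ext h)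
  obtain ⟨a, z, ha, hfz, hz0⟩ := exists_scale H hf0
  have hzF : (z : F) ≠ 0 := fun h => hz0 (by rw [show z = 0 from Subtype.ext h, map_zero])
  have hzL : (z : F) ∈ riemannRochSpace ((D : Divisor K F) + D0) := by
    have h2 : (z : F) = a⁻¹ • f := by rw [hfz, smul_smul, inv_mul_cancel₀ ha, one_smul]
    rw [h2]
    exact Submodule.smul_mem _ _ hf
  obtain ⟨Dz, hDz, hDzdeg⟩ := HasPrincipalDivisors.exists_divisor (K := K) (z : F) hzF
  -- the effective divisor
  refine ⟨Dz + D + D0, ?_, ?_, ?_⟩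
  · rw [Finsupp.le_def]
    intro P
    have := (mem_riemannRochSpace_iff.mp hzL P).resolve_left hzF
    rw [Finsupp.add_apply, Finsupp.add_apply, hDz P, Finsupp.zero_apply]
    rw [Finsupp.add_apply] at this
    omega
  · -- reduction
    have hS := red_mem_L H hzL hz0
    rw [Finsupp.mapDomain_add, hD0r] at hS
    have hmul : φt * R.red z ∈ riemannRochSpace SQ := by
      have := (mul_mem_riemannRochSpace_iff hφ0 (fun v => hφ v)
        (Finsupp.mapDomain (rOf H) (D : Divisor K F) + SQ) (R.red z)).mpr hS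
      rwa [add_sub_cancel_left] at this
    obtain ⟨cst, hcst⟩ := exists_const_of_finrank_eq_one hSQ0 hns hmul
    have hcst0 : cst ≠ 0 := by
      rintro rfl
      rw [map_zero] at hcst
      exact mul_ne_zero hφ0 hz0 hcst
    ext Q'
    rw [Finsupp.mapDomain_add, Finsupp.mapDomain_add, hD0r, Finsupp.add_apply, Finsupp.add_apply,
      mapDomain_rOf_principal H hz0 hDz Q', hφ Q']
    have hord : Q'.ord (φt * R.red z) = 0 := by rw [hcst, PlaceB.ord_algebraMap Q' hcst0]
    rw [Q'.ord_mul hφ0 hz0] at hord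
    omega
  · have hdeg' : Dz + (D : Divisor K F) + D0 - D0 ∈ Divisor.degZero (K := K) (F := F) := by
      rw [add_sub_cancel_right, Divisor.mem_degZero, map_add, hDzdeg, hdegD, add_zero]
    refine ⟨hdeg', ?_⟩
    refine (mk_eq_mk_iff (K := K) (F := F)).mpr ?_
    refine ⟨(z : F), hzF, fun v => ?_⟩
    rw [← hDz v]
    simp

/-! ### Uniqueness -/

/-- **uniqueness of the effective representative**. -/
theorem effRep_unique (H : LSpaceHyp R g c) {n : ℕ} (Q : Fin n → Place k Ft)
    (hns : Module.finrank k (riemannRochSpace (∑ i, Finsupp.single (Q i) (1 : ℤ))) = 1)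
    (D0 : Divisor K F) {E E' : Divisor K F} (hE : 0 ≤ E) (hE' : 0 ≤ E')
    (hEr' : Finsupp.mapDomain (rOf H) E' = ∑ i, Finsupp.single (Q i) (1 : ℤ))
    (hdeg : E - D0 ∈ Divisor.degZero (K := K) (F := F))
    (hdeg' : E' - D0 ∈ Divisor.degZero (K := K) (F := F))
    (heq : Pic0.mk ⟨E - D0, hdeg⟩ = Pic0.mk ⟨E' - D0, hdeg'⟩) : E = E' := by
  obtain ⟨h, hh0, hh⟩ := (mk_eq_mk_iff (K := K) (F := F)).mp heq
  have hsub : ∀ v : Place K F, E v - E' v = v.ord h := by
    intro v
    rw [← hh v]
    simp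
  -- `h ∈ L(E')`
  have hmem : h ∈ riemannRochSpace E' := by
    rw [mem_riemannRochSpace_iff]
    intro v
    right
    have := Finsupp.le_def.mp hE v
    rw [Finsupp.zero_apply] at this
    have := hsub v
    omega
  -- `l(E') = 1`
  have h1 : Module.finrank K (riemannRochSpace E') = 1 := by
    have hle := finrank_le_reduction H hE'
    rw [hEr', hns] at hle
    have hpos : 0 < Module.finrank K (riemannRochSpace E') := by
      have : Nontrivial (riemannRochSpace E') :=
        ⟨⟨⟨1, one_mem_riemannRochSpace hE'⟩, 0, fun h => one_ne_zero (congrArg Subtype.val h)⟩⟩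
      exact Module.finrank_pos
    omega
  obtain ⟨a, ha⟩ := exists_const_of_finrank_eq_one hE' h1 hmem
  have ha0 : a ≠ 0 := by
    rintro rfl
    rw [map_zero] at ha
    exact hh0 ha
  ext v
  have := hsub v
  rw [ha, PlaceB.ord_algebraMap v ha0] at this
  omega

/-! ### One point per disc -/

/-- **an effective divisor reducing to a reduced divisor has exactly one point in each disc**. -/
theorem exists_points (H : LSpaceHyp R g c) {n : ℕ} (Q : Fin n → Place k Ft)
    (hQ : Function.Injective Q) {E : Divisor K F} (hE : 0 ≤ E)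
    (hEr : Finsupp.mapDomain (rOf H) E = ∑ i, Finsupp.single (Q i) (1 : ℤ)) :
    ∃ P : Fin n → Place K F, (∀ i, P i ∈ disc H (Q i)) ∧
      E = ∑ i, Finsupp.single (P i) (1 : ℤ) := by
  classical
  have hpos : ∀ P ∈ E.support, 1 ≤ E P := by
    intro P hP
    have h0 := Finsupp.le_def.mp hE P
    rw [Finsupp.zero_apply] at h0
    have h1 := Finsupp.mem_support_iff.mp hP
    omega
  have hSQ : ∀ Q' : Place k Ft, (∑ i, Finsupp.single (Q i) (1 : ℤ)) Q' =
      ((Finset.univ.filter fun i => Q i = Q').card : ℤ) := by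
    intro Q'
    rw [Finsupp.finsetSum_apply]
    simp only [Finsupp.single_apply]
    rw [Finset.sum_ite, Finset.sum_const_zero, add_zero, Finset.sum_const, nsmul_eq_mul, mul_one]
  have hmd : ∀ Q' : Place k Ft, Finsupp.mapDomain (rOf H) E Q' =
      ∑ P ∈ E.support.filter (fun P => rOf H P = Q'), E P := by
    intro Q'
    convert mapDomain_apply_eq_sum (rOf H) E Q'
  -- the fibre over `Q i` is a singleton
  have hfib : ∀ i, ∃ P, E.support.filter (fun P => rOf H P = Q i) = {P} ∧ E P = 1 := by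
    intro i
    refine eq_singleton_of_sum_eq_one _ (fun P => E P)
      (fun P hP => hpos P (Finset.mem_filter.mp hP).1) ?_
    rw [← hmd, hEr, hSQ]
    have : (Finset.univ.filter fun j => Q j = Q i) = {i} := by
      ext j
      simp only [Finset.mem_filter, Finset.mem_univ, true_and, Finset.mem_singleton]
      exact ⟨fun h => hQ h, fun h => by rw [h]⟩
    rw [this, Finset.card_singleton, Nat.cast_one]
  choose P hPfib hP1 using hfib
  have hPmem : ∀ i, P i ∈ E.support ∧ rOf H (P i) = Q i := by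
    intro i
    have : P i ∈ E.support.filter (fun P => rOf H P = Q i) := by
      rw [hPfib i]; exact Finset.mem_singleton_self _
    exact Finset.mem_filter.mp this
  have hPinj : Function.Injective P := by
    intro i j hij
    apply hQ
    rw [← (hPmem i).2, ← (hPmem j).2, hij]
  refine ⟨P, fun i => (hPmem i).2, ?_⟩
  ext P'
  have hRHS : (∑ i, Finsupp.single (P i) (1 : ℤ)) P' =
      ((Finset.univ.filter fun i => P i = P').card : ℤ) := by
    rw [Finsupp.finsetSum_apply]
    simp only [Finsupp.single_apply]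
    rw [Finset.sum_ite, Finset.sum_const_zero, add_zero, Finset.sum_const, nsmul_eq_mul, mul_one]
  rw [hRHS]
  by_cases hP' : P' ∈ E.support
  · -- `rOf P'` is one of the `Q i`
    have hge : 1 ≤ Finsupp.mapDomain (rOf H) E (rOf H P') := by
      rw [hmd]
      have hmemf : P' ∈ E.support.filter (fun P => rOf H P = rOf H P') :=
        Finset.mem_filter.mpr ⟨hP', rfl⟩
      calc (1 : ℤ) ≤ E P' := hpos P' hP'
        _ ≤ _ := Finset.single_le_sum (f := fun P => E P)
          (fun P hP => by have := hpos P (Finset.mem_filter.mp hP).1; omega) hmemf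
    rw [hEr, hSQ] at hge
    have hne : (Finset.univ.filter fun i => Q i = rOf H P').Nonempty := by
      rw [← Finset.card_pos]
      exact_mod_cast hge
    obtain ⟨i, hi⟩ := hne
    have hi' : Q i = rOf H P' := (Finset.mem_filter.mp hi).2
    have hmemf : P' ∈ E.support.filter (fun P => rOf H P = Q i) :=
      Finset.mem_filter.mpr ⟨hP', hi'.symm⟩
    rw [hPfib i, Finset.mem_singleton] at hmemf
    have : (Finset.univ.filter fun j => P j = P') = {i} := by
      ext j
      simp only [Finset.mem_filter, Finset.mem_univ, true_and, Finset.mem_singleton]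
      exact ⟨fun h => hPinj (h.trans hmemf), fun h => by rw [h, hmemf]⟩
    rw [this, Finset.card_singleton, Nat.cast_one, hmemf, hP1 i]
  · have : (Finset.univ.filter fun j => P j = P') = ∅ := by
      ext j
      simp only [Finset.mem_filter, Finset.mem_univ, true_and, Finset.notMem_empty, iff_false]
      intro h
      exact hP' (h ▸ (hPmem j).1)
    rw [this, Finset.card_empty, Nat.cast_zero, Finsupp.notMem_support_iff.mp hP']

/-! ### Chart forms -/

namespace Chart

variable {H : LSpaceHyp R g c} {n : ℕ}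

theorem degree_D0 (𝔠 : Chart H n) : Divisor.degree 𝔠.D0 = n := by
  rw [GH.Chart.D0, map_sum]
  simp only [Divisor.degree_single, H.degF, Nat.cast_one, mul_one, Finset.sum_const,
    Finset.card_univ, Fintype.card_fin, nsmul_eq_mul]

theorem mapDomain_D0 (𝔠 : Chart H n) :
    Finsupp.mapDomain (rOf H) 𝔠.D0 = ∑ i, Finsupp.single (𝔠.Q i) (1 : ℤ) := by
  rw [GH.Chart.D0, Finsupp.mapDomain_finsetSum]
  refine Finset.sum_congr rfl fun i _ => ?_
  rw [Finsupp.mapDomain_single]
  congr 1
  exact (𝔠.pt i).hP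

/-- the effective representative of a class of `KerRed` in a chart: one point in each disc. -/
theorem exists_points_of_kerRed (hn : (n : ℤ) = g) (𝔠 : Chart H n) {ξ : Pic0 K F}
    (hξ : ξ ∈ KerRed H) :
    ∃ P : Fin n → Place K F, (∀ i, P i ∈ disc H (𝔠.Q i)) ∧
      ∃ hdeg : (∑ i, Finsupp.single (P i) (1 : ℤ)) - 𝔠.D0 ∈ Divisor.degZero (K := K) (F := F),
        Pic0.mk ⟨_, hdeg⟩ = ξ := by
  obtain ⟨E, hE, hEr, hdeg, hmk⟩ :=
    exists_effRep H hn 𝔠.Q 𝔠.hns 𝔠.D0 (degree_D0 𝔠) (mapDomain_D0 𝔠) hξ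
  obtain ⟨P, hP, rfl⟩ := exists_points H 𝔠.Q 𝔠.hQ hE hEr
  exact ⟨P, hP, hdeg, hmk⟩

/-- uniqueness of the points. -/
theorem points_unique (𝔠 : Chart H n) {P P' : Fin n → Place K F}
    (hP : ∀ i, P i ∈ disc H (𝔠.Q i)) (hP' : ∀ i, P' i ∈ disc H (𝔠.Q i))
    (hdeg : (∑ i, Finsupp.single (P i) (1 : ℤ)) - 𝔠.D0 ∈ Divisor.degZero (K := K) (F := F))
    (hdeg' : (∑ i, Finsupp.single (P' i) (1 : ℤ)) - 𝔠.D0 ∈ Divisor.degZero (K := K) (F := F))
    (heq : Pic0.mk ⟨_, hdeg⟩ = Pic0.mk ⟨_, hdeg'⟩) : P = P' := by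
  classical
  have hr' : Finsupp.mapDomain (rOf H) (∑ i, Finsupp.single (P' i) (1 : ℤ)) =
      ∑ i, Finsupp.single (𝔠.Q i) (1 : ℤ) := by
    rw [Finsupp.mapDomain_finsetSum]
    refine Finset.sum_congr rfl fun i _ => ?_
    rw [Finsupp.mapDomain_single]
    congr 1
    exact hP' i
  have hEE' := effRep_unique H 𝔠.Q 𝔠.hns 𝔠.D0 (sum_single_nonneg' P) (sum_single_nonneg' P') hr'
    hdeg hdeg' heq
  funext i
  -- `P i` is a point of `Σ P' j`, hence some `P' j`, and the discs force `j = i`
  have h1 : (∑ j, Finsupp.single (P' j) (1 : ℤ)) (P i) ≠ 0 := by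
    rw [← hEE', Finsupp.finsetSum_apply]
    have hnn : ∀ j ∈ Finset.univ, (0 : ℤ) ≤ (Finsupp.single (P j) (1 : ℤ)) (P i) := by
      intro j _
      rw [Finsupp.single_apply]
      split_ifs <;> simp
    have hle := Finset.single_le_sum hnn (Finset.mem_univ i)
    rw [Finsupp.single_eq_same] at hle
    omega
  rw [Finsupp.finsetSum_apply] at h1
  obtain ⟨j, -, hj⟩ := Finset.exists_ne_zero_of_sum_ne_zero h1
  rw [Finsupp.single_apply] at hj
  have hPj : P' j = P i := by
    by_contra hne
    rw [if_neg hne] at hj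
    exact hj rfl
  have hij : j = i := by
    apply 𝔠.hQ
    have h2 := hP' j
    have h3 := hP i
    rw [disc, Set.mem_ofPred_eq] at h2 h3
    rw [← h2, ← h3, hPj]
  rw [← hPj, hij]

end Chart

end Fermat.Agent.GH.L2
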